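import Mathlib
import Fermat.Prelude.Def_AlgebraicCurve_DivisorClassGroup
import Fermat.Agent.S24.FFModel
import Fermat.Agent.S24.FFPlaces

/-!
# S18, block E: everywhere-unit functions are constant (any characteristic)

`K` algebraically closed, `F/K` a field with a transcendental `x` such that `F/K(x)` is finite
separable.  If `u ≠ 0` has `ord_Q u = 0` at every place `Q` of `F/K`, then `u ∈ K`.
Proof: `u` is integral over `K[x]` and over `K[1/x]` (Dedekind models), hence the coefficients
of its minimal polynomial over `K(x)` lie in `K[x] ∩ K[1/x] = K`.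
-/

set_option autoImplicit false
set_option linter.unusedSectionVars false

open AlgebraicCurve IsDedekindDomain Polynomial IntermediateField Fermat.Agent.S24

namespace Fermat.Agent.S18.Trans.ConstGeneric

variable {K F : Type*} [Field K] [Field F] [Algebra K F]

/-- `f(x) = g(1/x)` with `x` transcendental forces a constant. -/
theorem const_of_aeval_eq_aeval_inv {x : F} (hx : Transcendental K x) (f g : K[X])
    (h : aeval x f = aeval x⁻¹ g) : ∃ c : K, aeval x f = algebraMap K F c := by
  have hx0 : x ≠ 0 := by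
    rintro rfl
    exact hx ⟨X, X_ne_zero, by simp⟩
  by_cases hf : f = 0
  · exact ⟨0, by simp [hf]⟩
  let _ : Invertible x := invertibleOfNonzero hx0
  set d := g.natDegree with hd
  have hdeg : (g.reflect d).natDegree ≤ d := by
    have := natDegree_reflect_le (N := d) (p := g)
    rw [hd, max_self] at this
    rw [hd]; exact this
  have h1 := eval₂_reflect_mul_pow (algebraMap K F) x d (g.reflect d) hdeg
  rw [reflect_reflect] at h1
  have h2 : aeval x (f * X ^ d) = aeval x (g.reflect d) := by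
    rw [map_mul, map_pow, aeval_X, h, aeval_def, aeval_def]
    rw [show x⁻¹ = ⅟x from (invOf_eq_inv x).symm]
    exact h1
  have hinj : Function.Injective (aeval (R := K) x) := transcendental_iff_injective.mp hx
  have h3 : f * X ^ d = g.reflect d := hinj h2
  have h4 : (f * X ^ d).natDegree = f.natDegree + d := by
    rw [natDegree_mul hf (pow_ne_zero _ X_ne_zero), natDegree_X_pow]
  have h5 : f.natDegree = 0 := by
    rw [h3] at h4
    omega
  obtain ⟨c, hc⟩ := natDegree_eq_zero.mp h5
  exact ⟨c, by rw [← hc, aeval_C]⟩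


section Integral

variable (K) (x : F) [hx : Fact (Transcendental K x)] [FiniteDimensional K⟮x⟯ F]
  [Algebra.IsSeparable K⟮x⟯ F]

theorem isDedekindDomain_Bof : IsDedekindDomain (Bof K x) :=
  integralClosure.isDedekindDomain (PolyOf K x) K⟮x⟯ F

theorem isFractionRing_Bof : IsFractionRing (Bof K x) F :=
  integralClosure.isFractionRing_of_finite_extension K⟮x⟯ F

/-- an everywhere-unit is integral over `K[x]`. -/
theorem isIntegral_of_ord_eq_zero {u : F} (hu : u ≠ 0)
    (h : ∀ Q : Place K F, Q.ord u = 0) : IsIntegral (PolyOf K x) u := by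
  haveI := isDedekindDomain_Bof K x
  haveI := isFractionRing_Bof K x
  have hmem : u ∈ (algebraMap (Bof K x) F).range := by
    apply HeightOneSpectrum.mem_integers_of_valuation_le_one
    intro P
    rw [← mem_placeOfPrime_iff (K := K) P u, mem_iff_ord_nonneg _ hu, h]
  obtain ⟨b, hb⟩ := hmem
  rw [← hb]
  exact b.2

end Integral


section Main

theorem adjoin_inv_eq' (y : F) : K⟮y⁻¹⟯ = K⟮y⟯ := by
  apply le_antisymm
  · rw [adjoin_simple_le_iff]
    exact inv_mem (mem_adjoin_simple_self K y)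
  · rw [adjoin_simple_le_iff]
    have h := inv_mem (mem_adjoin_simple_self K y⁻¹)
    rwa [inv_inv] at h

theorem transcendental_inv' {y : F} (hy : Transcendental K y) : Transcendental K y⁻¹ := by
  intro h
  apply hy
  have := h.inv
  rwa [inv_inv] at this

/-- **Everywhere-unit functions are constant.** -/
theorem exists_const_of_ord_eq_zero [IsAlgClosed K] (x : F) (hx : Transcendental K x)
    [FiniteDimensional K⟮x⟯ F] [Algebra.IsSeparable K⟮x⟯ F] {u : F} (hu : u ≠ 0)
    (h : ∀ Q : Place K F, Q.ord u = 0) : ∃ c : K, u = algebraMap K F c := by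
  haveI : Fact (Transcendental K x) := ⟨hx⟩
  haveI : Fact (Transcendental K x⁻¹) := ⟨transcendental_inv' hx⟩
  have hE : K⟮x⟯ = K⟮x⁻¹⟯ := (adjoin_inv_eq' x).symm
  have keyFD : ∀ E₁ E₂ : IntermediateField K F, E₁ = E₂ → FiniteDimensional E₁ F →
      FiniteDimensional E₂ F := by
    rintro _ _ rfl h; exact h
  have keySep : ∀ E₁ E₂ : IntermediateField K F, E₁ = E₂ → Algebra.IsSeparable E₁ F →
      Algebra.IsSeparable E₂ F := by
    rintro _ _ rfl h; exact h
  have keyMin : ∀ E₁ E₂ : IntermediateField K F, E₁ = E₂ →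
      (minpoly E₁ u).map (algebraMap E₁ F) = (minpoly E₂ u).map (algebraMap E₂ F) := by
    rintro _ _ rfl; rfl
  haveI : FiniteDimensional K⟮x⁻¹⟯ F := keyFD _ _ hE inferInstance
  haveI : Algebra.IsSeparable K⟮x⁻¹⟯ F := keySep _ _ hE inferInstance
  have int1 : IsIntegral (PolyOf K x) u := isIntegral_of_ord_eq_zero K x hu h
  have int2 : IsIntegral (PolyOf K x⁻¹) u := isIntegral_of_ord_eq_zero K x⁻¹ hu h
  have m1 : minpoly K⟮x⟯ u = (minpoly (PolyOf K x) u).map (algebraMap _ K⟮x⟯) :=
    minpoly.isIntegrallyClosed_eq_field_fractions' _ int1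
  have m2 : minpoly K⟮x⁻¹⟯ u = (minpoly (PolyOf K x⁻¹) u).map (algebraMap _ K⟮x⁻¹⟯) :=
    minpoly.isIntegrallyClosed_eq_field_fractions' _ int2
  have q1 : (minpoly K⟮x⟯ u).map (algebraMap K⟮x⟯ F) =
      (minpoly (PolyOf K x) u).map (algebraMap (PolyOf K x) F) := by
    rw [m1, Polynomial.map_map, ← IsScalarTower.algebraMap_eq]
  have q2 : (minpoly K⟮x⁻¹⟯ u).map (algebraMap K⟮x⁻¹⟯ F) =
      (minpoly (PolyOf K x⁻¹) u).map (algebraMap (PolyOf K x⁻¹) F) := by
    rw [m2, Polynomial.map_map, ← IsScalarTower.algebraMap_eq]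
  have hintE : IsIntegral K⟮x⟯ u := IsIntegral.of_finite _ _
  have hmonic : ((minpoly K⟮x⟯ u).map (algebraMap K⟮x⟯ F)).Monic := (minpoly.monic hintE).map _
  have hroot : aeval u ((minpoly K⟮x⟯ u).map (algebraMap K⟮x⟯ F)) = 0 := by
    rw [aeval_map_algebraMap]; exact minpoly.aeval _ _
  have hcoeff : ∀ n : ℕ, ((minpoly K⟮x⟯ u).map (algebraMap K⟮x⟯ F)).coeff n ∈
      Set.range (algebraMap K F) := by
    intro n
    have e1 : ((minpoly K⟮x⟯ u).map (algebraMap K⟮x⟯ F)).coeff n =
        aeval x ((minpoly (PolyOf K x) u).coeff n : K[X]) := by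
      rw [q1, coeff_map]; rfl
    have e2 : ((minpoly K⟮x⟯ u).map (algebraMap K⟮x⟯ F)).coeff n =
        aeval x⁻¹ ((minpoly (PolyOf K x⁻¹) u).coeff n : K[X]) := by
      rw [keyMin _ _ hE, q2, coeff_map]; rfl
    obtain ⟨c, hc⟩ := const_of_aeval_eq_aeval_inv hx _ _ (e1.symm.trans e2)
    exact ⟨c, by rw [e1, hc]⟩
  obtain ⟨r, hr, -, hrm⟩ := lifts_and_natDegree_eq_and_monic
    ((lifts_iff_coeff_lifts _).mpr hcoeff) hmonic
  have hintK : IsIntegral K u := by
    refine ⟨r, hrm, ?_⟩
    rw [← aeval_def, ← aeval_map_algebraMap F, hr]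
    exact hroot
  have hdeg : (minpoly K u).degree = 1 :=
    IsAlgClosed.degree_eq_one_of_irreducible K (minpoly.irreducible hintK)
  obtain ⟨c, hc⟩ := minpoly.mem_range_of_degree_eq_one K u hdeg
  exact ⟨c, hc.symm⟩

end Main

end Fermat.Agent.S18.Trans.ConstGeneric
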