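import Mathlib

/-!
# S18, block E: the residue field of a valuation subring of an algebraically closed field
is algebraically closed.
-/

set_option autoImplicit false

open Polynomial

namespace Fermat.Agent.S18.Trans.ResidueAlgClosed

theorem isAlgClosed_residueField {L : Type*} [Field L] [IsAlgClosed L] (A : ValuationSubring L) :
    IsAlgClosed (IsLocalRing.ResidueField A) := by
  apply IsAlgClosed.of_exists_root
  intro p hmonic hirr
  have hsurj : Function.Surjective (IsLocalRing.residue A) := IsLocalRing.residue_surjective
  have hlift : p ∈ lifts (IsLocalRing.residue A) := by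
    rw [lifts_iff_coeff_lifts]
    intro n
    exact hsurj _
  obtain ⟨P, hP, hPdeg, hPm⟩ := lifts_and_natDegree_eq_and_monic hlift hmonic
  have hdeg : (P.map (A.subtype : A →+* L)).degree ≠ 0 := by
    have hm : (P.map (A.subtype : A →+* L)).Monic := hPm.map _
    rw [degree_eq_natDegree hm.ne_zero, hPm.natDegree_map, hPdeg]
    have := hirr.natDegree_pos
    exact_mod_cast this.ne'
  obtain ⟨α, hα⟩ := IsAlgClosed.exists_root _ hdeg
  have hint : IsIntegral A α := by
    refine ⟨P, hPm, ?_⟩
    have : eval₂ (algebraMap A L) α P = (P.map (A.subtype : A →+* L)).eval α := by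
      rw [eval_map]; rfl
    rw [this]; exact hα
  obtain ⟨a, ha⟩ := (IsIntegrallyClosed.isIntegral_iff (R := A) (K := L)).mp hint
  refine ⟨IsLocalRing.residue A a, ?_⟩
  have hPa : P.eval a = 0 := by
    have h1 : (P.map (A.subtype : A →+* L)).eval (A.subtype a) = 0 := by
      have : A.subtype a = α := ha
      rw [this]; exact hα
    rw [eval_map, eval₂_hom] at h1
    exact A.subtype_injective (by rw [h1, map_zero])
  rw [← hP, eval_map, eval₂_hom, hPa, map_zero]

end Fermat.Agent.S18.Trans.ResidueAlgClosed
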