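import Mathlib
import Fermat.Prelude.Def_ModularCurve_ReductionModL

/-!
# S18, block E, interface: the Kummer form `(*)_N` of S18

`Star A N m` is the statement, free of the abstract place reduction `r`:
for `y₁ y₂ ∈ A((q))` with base changes in `F_N = modularFunctionFieldBar N` and nonzero
reductions in `F_{N,k} = modularFunctionFieldFullC k N`, if every place of `F_N` has
`m ∣ ord (y₁/y₂)` and `ȳ₁ = c gᵐ ȳ₂` with `g ∈ F_{N,k}`, then `y₁ = c' wᵐ y₂` with `w ∈ F_N`.
-/

set_option autoImplicit false

open HahnSeries AlgebraicCurve ModularCurve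

namespace Fermat.Agent.S18.Trans

set_option synthInstance.maxHeartbeats 400000

/-- The Kummer form `(*)_N` of S18 for the exponent `m` (no place reduction involved). -/
def Star (A : ValuationSubring (AlgebraicClosure ℚ)) (N m : ℕ) : Prop :=
  ∀ (y₁ y₂ : LaurentSeries A)
    (h₁ : coeffMap A.subtype y₁ ∈ modularFunctionFieldBar N)
    (h₂ : coeffMap A.subtype y₂ ∈ modularFunctionFieldBar N),
    coeffMap (IsLocalRing.residue A) y₁ ∈
        modularFunctionFieldFullC (IsLocalRing.ResidueField A) N →
    coeffMap (IsLocalRing.residue A) y₂ ∈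
        modularFunctionFieldFullC (IsLocalRing.ResidueField A) N →
    coeffMap (IsLocalRing.residue A) y₁ ≠ 0 →
    coeffMap (IsLocalRing.residue A) y₂ ≠ 0 →
    (∀ P : Place (AlgebraicClosure ℚ) (modularFunctionFieldBar N),
      (m : ℤ) ∣ P.ord (⟨coeffMap A.subtype y₁, h₁⟩ : modularFunctionFieldBar N)
        - P.ord (⟨coeffMap A.subtype y₂, h₂⟩ : modularFunctionFieldBar N)) →
    (∃ (c : IsLocalRing.ResidueField A) (g : LaurentSeries (IsLocalRing.ResidueField A)),
      g ∈ modularFunctionFieldFullC (IsLocalRing.ResidueField A) N ∧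
      coeffMap (IsLocalRing.residue A) y₁ =
        HahnSeries.C c * g ^ m * coeffMap (IsLocalRing.residue A) y₂) →
    ∃ (c : AlgebraicClosure ℚ) (w : LaurentSeries (AlgebraicClosure ℚ)),
      w ∈ modularFunctionFieldBar N ∧
      coeffMap A.subtype y₁ = HahnSeries.C c * w ^ m * coeffMap A.subtype y₂

/-- "Everywhere-unit functions are constant" on the special fibre. -/
def ConstK (A : ValuationSubring (AlgebraicClosure ℚ)) (N : ℕ) : Prop :=
  ∀ u : modularFunctionFieldFullC (IsLocalRing.ResidueField A) N, u ≠ 0 →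
    (∀ Q : Place (IsLocalRing.ResidueField A)
        (modularFunctionFieldFullC (IsLocalRing.ResidueField A) N), Q.ord u = 0) →
    ∃ c : IsLocalRing.ResidueField A,
      (u : LaurentSeries (IsLocalRing.ResidueField A)) = HahnSeries.C c

end Fermat.Agent.S18.Trans
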