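import Mathlib
import Fermat.Prelude.Def_ModularCurve_ReductionModL
import Fermat.Agent.S18.Trans.Star

/-!
# S18, block E, step (0): `(*)_N` implies the frozen statement S18(N)

The abstract place reduction `r` of the hypothesis `ReductionInputsModL` is consumed here and
nowhere else.
-/

set_option autoImplicit false

open HahnSeries AlgebraicCurve ModularCurve

namespace Fermat.Agent.S18.Trans

set_option synthInstance.maxHeartbeats 400000

variable {A : ValuationSubring (AlgebraicClosure ℚ)} {N : ℕ}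

/-- a divisor of the generic fibre which is the divisor of a quotient `y₁ / y₂` of two integral
series with nonzero reductions. -/
def IsQuotDiv (A : ValuationSubring (AlgebraicClosure ℚ)) (N : ℕ)
    (E : Divisor (AlgebraicClosure ℚ) (modularFunctionFieldBar N)) : Prop :=
  ∃ (y₁ y₂ : LaurentSeries A)
    (h₁ : coeffMap A.subtype y₁ ∈ modularFunctionFieldBar N)
    (h₂ : coeffMap A.subtype y₂ ∈ modularFunctionFieldBar N)
    (E₁ E₂ : Divisor (AlgebraicClosure ℚ) (modularFunctionFieldBar N)),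
    coeffMap (IsLocalRing.residue A) y₁ ∈
        modularFunctionFieldFullC (IsLocalRing.ResidueField A) N ∧
    coeffMap (IsLocalRing.residue A) y₂ ∈
        modularFunctionFieldFullC (IsLocalRing.ResidueField A) N ∧
    coeffMap (IsLocalRing.residue A) y₁ ≠ 0 ∧
    coeffMap (IsLocalRing.residue A) y₂ ≠ 0 ∧
    (∀ P, E₁ P = P.ord (⟨coeffMap A.subtype y₁, h₁⟩ : modularFunctionFieldBar N)) ∧
    (∀ P, E₂ P = P.ord (⟨coeffMap A.subtype y₂, h₂⟩ : modularFunctionFieldBar N)) ∧
    E = E₁ - E₂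

theorem coeffMap_subtype_ne_zero {y : LaurentSeries A}
    (hy : coeffMap (IsLocalRing.residue A) y ≠ 0) : coeffMap A.subtype y ≠ 0 := by
  intro h0
  apply hy
  have hy0 : y = 0 := by
    ext k
    have := congrArg (fun s : LaurentSeries (AlgebraicClosure ℚ) => s.coeff k) h0
    simp only [coeffMap_coeff, HahnSeries.coeff_zero] at this
    rw [HahnSeries.coeff_zero]
    simpa using this
  rw [hy0, map_zero]

theorem isQuotDiv_zero : IsQuotDiv A N 0 := by
  have h1 : coeffMap A.subtype (1 : LaurentSeries A) ∈ modularFunctionFieldBar N := by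
    rw [map_one]; exact one_mem _
  have h1k : coeffMap (IsLocalRing.residue A) (1 : LaurentSeries A) ∈
      modularFunctionFieldFullC (IsLocalRing.ResidueField A) N := by
    rw [map_one]; exact one_mem _
  have hne : coeffMap (IsLocalRing.residue A) (1 : LaurentSeries A) ≠ 0 := by
    rw [map_one]; exact one_ne_zero
  have hone : (⟨coeffMap A.subtype (1 : LaurentSeries A), h1⟩ : modularFunctionFieldBar N) = 1 :=
    Subtype.ext (map_one _)
  refine ⟨1, 1, h1, h1, 0, 0, h1k, h1k, hne, hne, fun P => ?_, fun P => ?_, by simp⟩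
  · rw [hone, Place.ord_one]; rfl
  · rw [hone, Place.ord_one]; rfl

theorem isQuotDiv_of_mem {E : Divisor (AlgebraicClosure ℚ) (modularFunctionFieldBar N)}
    (hE : E ∈ integralPrincipalDivisors A (IsLocalRing.residue A) N) : IsQuotDiv A N E := by
  obtain ⟨y, hy, hyk, hne, hEy⟩ := hE
  have h1 : coeffMap A.subtype (1 : LaurentSeries A) ∈ modularFunctionFieldBar N := by
    rw [map_one]; exact one_mem _
  have h1k : coeffMap (IsLocalRing.residue A) (1 : LaurentSeries A) ∈
      modularFunctionFieldFullC (IsLocalRing.ResidueField A) N := by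
    rw [map_one]; exact one_mem _
  have hne1 : coeffMap (IsLocalRing.residue A) (1 : LaurentSeries A) ≠ 0 := by
    rw [map_one]; exact one_ne_zero
  have hone : (⟨coeffMap A.subtype (1 : LaurentSeries A), h1⟩ : modularFunctionFieldBar N) = 1 :=
    Subtype.ext (map_one _)
  refine ⟨y, 1, hy, h1, E, 0, hyk, h1k, hne, hne1, hEy, fun P => ?_, by simp⟩
  rw [hone, Place.ord_one]; rfl

theorem IsQuotDiv.neg {E : Divisor (AlgebraicClosure ℚ) (modularFunctionFieldBar N)}
    (hE : IsQuotDiv A N E) : IsQuotDiv A N (-E) := by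
  obtain ⟨y₁, y₂, h₁, h₂, E₁, E₂, k₁, k₂, n₁, n₂, e₁, e₂, rfl⟩ := hE
  exact ⟨y₂, y₁, h₂, h₁, E₂, E₁, k₂, k₁, n₂, n₁, e₂, e₁, by abel⟩

theorem IsQuotDiv.add {E E' : Divisor (AlgebraicClosure ℚ) (modularFunctionFieldBar N)}
    (hE : IsQuotDiv A N E) (hE' : IsQuotDiv A N E') : IsQuotDiv A N (E + E') := by
  obtain ⟨y₁, y₂, h₁, h₂, E₁, E₂, k₁, k₂, n₁, n₂, e₁, e₂, rfl⟩ := hE
  obtain ⟨z₁, z₂, g₁, g₂, G₁, G₂, l₁, l₂, o₁, o₂, f₁, f₂, rfl⟩ := hE'
  have hm₁ : coeffMap A.subtype (y₁ * z₁) ∈ modularFunctionFieldBar N := by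
    rw [map_mul]; exact mul_mem h₁ g₁
  have hm₂ : coeffMap A.subtype (y₂ * z₂) ∈ modularFunctionFieldBar N := by
    rw [map_mul]; exact mul_mem h₂ g₂
  have hmul₁ : (⟨coeffMap A.subtype (y₁ * z₁), hm₁⟩ : modularFunctionFieldBar N) =
      ⟨coeffMap A.subtype y₁, h₁⟩ * ⟨coeffMap A.subtype z₁, g₁⟩ := Subtype.ext (map_mul _ _ _)
  have hmul₂ : (⟨coeffMap A.subtype (y₂ * z₂), hm₂⟩ : modularFunctionFieldBar N) =
      ⟨coeffMap A.subtype y₂, h₂⟩ * ⟨coeffMap A.subtype z₂, g₂⟩ := Subtype.ext (map_mul _ _ _)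
  have ne : ∀ {y : LaurentSeries A} (hy : coeffMap A.subtype y ∈ modularFunctionFieldBar N),
      coeffMap (IsLocalRing.residue A) y ≠ 0 →
      (⟨coeffMap A.subtype y, hy⟩ : modularFunctionFieldBar N) ≠ 0 := by
    intro y hy hne h0
    exact coeffMap_subtype_ne_zero hne (congrArg Subtype.val h0)
  refine ⟨y₁ * z₁, y₂ * z₂, hm₁, hm₂, E₁ + G₁, E₂ + G₂, ?_, ?_, ?_, ?_, fun P => ?_, fun P => ?_,
    by abel⟩
  · rw [map_mul]; exact mul_mem k₁ l₁
  · rw [map_mul]; exact mul_mem k₂ l₂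
  · rw [map_mul]; exact mul_ne_zero n₁ o₁
  · rw [map_mul]; exact mul_ne_zero n₂ o₂
  · rw [hmul₁, P.ord_mul (ne h₁ n₁) (ne g₁ o₁), Finsupp.add_apply, e₁, f₁]
  · rw [hmul₂, P.ord_mul (ne h₂ n₂) (ne g₂ o₂), Finsupp.add_apply, e₂, f₂]

theorem isQuotDiv_of_mem_closure
    {E : Divisor (AlgebraicClosure ℚ) (modularFunctionFieldBar N)}
    (hE : E ∈ AddSubgroup.closure (integralPrincipalDivisors A (IsLocalRing.residue A) N)) :
    IsQuotDiv A N E := by
  induction hE using AddSubgroup.closure_induction with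
  | mem E hE => exact isQuotDiv_of_mem hE
  | zero => exact isQuotDiv_zero
  | add E E' _ _ hE hE' => exact hE.add hE'
  | neg E _ hE => exact hE.neg

end Fermat.Agent.S18.Trans

namespace Fermat.Agent.S18.Trans

set_option synthInstance.maxHeartbeats 400000

open HahnSeries AlgebraicCurve ModularCurve

/-- constants have order zero at every place. -/
theorem ord_algebraMap_eq_zero {K F : Type*} [Field K] [Field F] [Algebra K F]
    (P : Place K F) (a : K) : P.ord (algebraMap K F a) = 0 := by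
  rcases eq_or_ne a 0 with rfl | ha
  · simp
  have hu : IsUnit (⟨algebraMap K F a, P.algebraMap_mem' a⟩ : P.toValuationSubring) := by
    refine IsUnit.of_mul_eq_one (⟨algebraMap K F a⁻¹, P.algebraMap_mem' a⁻¹⟩) ?_
    apply Subtype.ext
    show algebraMap K F a * algebraMap K F a⁻¹ = 1
    rw [← map_mul, mul_inv_cancel₀ ha, map_one]
  have := P.ord_coe_unit hu.unit
  simpa using this

theorem ord_pow' {K F : Type*} [Field K] [Field F] [Algebra K F]
    (P : Place K F) (f : F) (n : ℕ) : P.ord (f ^ n) = n * P.ord f := by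
  have := P.ord_zpow f (n : ℤ)
  rwa [zpow_natCast] at this

end Fermat.Agent.S18.Trans

namespace Fermat.Agent.S18.Trans

set_option synthInstance.maxHeartbeats 400000

open HahnSeries AlgebraicCurve ModularCurve

theorem algebraMap_laurent_eq_C {R : Type*} [CommRing R] (r : R) :
    algebraMap R (LaurentSeries R) r = HahnSeries.C r := by
  have h1 : algebraMap R (PowerSeries R) r = PowerSeries.C r := by simp
  rw [HahnSeries.algebraMap_apply', h1, HahnSeries.ofPowerSeries_C]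

variable {A : ValuationSubring (AlgebraicClosure ℚ)} {N : ℕ}

/-- generic side: if `y₁ = c' wᵐ y₂` and `m • D = div y₁ - div y₂` then `D = div w`. -/
theorem generic_side {m : ℕ} (hm0 : m ≠ 0)
    {D E₁ E₂ : Divisor (AlgebraicClosure ℚ) (modularFunctionFieldBar N)}
    {y₁ y₂ : LaurentSeries A}
    (h₁ : coeffMap A.subtype y₁ ∈ modularFunctionFieldBar N)
    (h₂ : coeffMap A.subtype y₂ ∈ modularFunctionFieldBar N)
    (n₁ : coeffMap (IsLocalRing.residue A) y₁ ≠ 0)
    (n₂ : coeffMap (IsLocalRing.residue A) y₂ ≠ 0)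
    (e₁ : ∀ P, E₁ P = P.ord (⟨coeffMap A.subtype y₁, h₁⟩ : modularFunctionFieldBar N))
    (e₂ : ∀ P, E₂ P = P.ord (⟨coeffMap A.subtype y₂, h₂⟩ : modularFunctionFieldBar N))
    (hE : m • D = E₁ - E₂)
    {c' : AlgebraicClosure ℚ} {w : LaurentSeries (AlgebraicClosure ℚ)}
    (hw : w ∈ modularFunctionFieldBar N)
    (hw' : coeffMap A.subtype y₁ = HahnSeries.C c' * w ^ m * coeffMap A.subtype y₂) :
    (⟨w, hw⟩ : modularFunctionFieldBar N) ≠ 0 ∧
      ∀ P : Place (AlgebraicClosure ℚ) (modularFunctionFieldBar N),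
        D P = P.ord (⟨w, hw⟩ : modularFunctionFieldBar N) := by
  have hZ₁0 : (⟨coeffMap A.subtype y₁, h₁⟩ : modularFunctionFieldBar N) ≠ 0 :=
    fun h0 => coeffMap_subtype_ne_zero n₁ (congrArg Subtype.val h0)
  have hZ₂0 : (⟨coeffMap A.subtype y₂, h₂⟩ : modularFunctionFieldBar N) ≠ 0 :=
    fun h0 => coeffMap_subtype_ne_zero n₂ (congrArg Subtype.val h0)
  have hZeq : (⟨coeffMap A.subtype y₁, h₁⟩ : modularFunctionFieldBar N) =
      algebraMap (AlgebraicClosure ℚ) (modularFunctionFieldBar N) c' *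
        (⟨w, hw⟩ : modularFunctionFieldBar N) ^ m * ⟨coeffMap A.subtype y₂, h₂⟩ := by
    apply Subtype.ext
    simp only [MulMemClass.coe_mul, SubmonoidClass.coe_pow]
    rw [hw']
    congr 2
    exact (algebraMap_laurent_eq_C c').symm
  have hc'0 : algebraMap (AlgebraicClosure ℚ) (modularFunctionFieldBar N) c' ≠ 0 := by
    intro h0
    rw [h0, zero_mul, zero_mul] at hZeq
    exact hZ₁0 hZeq
  have hW0 : (⟨w, hw⟩ : modularFunctionFieldBar N) ≠ 0 := by
    intro h0
    rw [h0, zero_pow hm0, mul_zero, zero_mul] at hZeq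
    exact hZ₁0 hZeq
  have hDW : ∀ P : Place (AlgebraicClosure ℚ) (modularFunctionFieldBar N),
      D P =
        P.ord (⟨w, hw⟩ : modularFunctionFieldBar N) := by
    intro P
    have h8 := DFunLike.congr_fun hE P
    simp only [Finsupp.smul_apply, Finsupp.sub_apply, nsmul_eq_mul] at h8
    rw [e₁, e₂, hZeq, P.ord_mul (mul_ne_zero hc'0 (pow_ne_zero _ hW0)) hZ₂0,
      P.ord_mul hc'0 (pow_ne_zero _ hW0), ord_algebraMap_eq_zero, ord_pow'] at h8
    have hm' : (m : ℤ) ≠ 0 := by exact_mod_cast hm0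
    have h9 : (m : ℤ) * (D P) =
        (m : ℤ) * P.ord (⟨w, hw⟩ : modularFunctionFieldBar N) := by linarith
    exact mul_left_cancel₀ hm' h9
  exact ⟨hW0, hDW⟩

/-- **Step (0)**: the Kummer form `(*)_N` implies the frozen S18(N). -/
theorem eq_zero_of_star (h : ReductionInputsModL A N) (m : ℕ) (hm0 : m ≠ 0)
    (hconst : ConstK A N) (hstar : Star A N m) (z : JZero N)
    (hmz : m • z = 0) (hz : reductionModL A N z = 0) : z = 0 := by
  obtain ⟨D, rfl⟩ := Pic0.mk_surjective z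
  have hr := isPlaceReductionModL_placeReductionModL h
  have hgen : PrincipalGeneratedByIntegral A (IsLocalRing.residue A) N := h.choose_spec.2
  -- generic side: `m • D` is principal
  have h1 : m • (D : Divisor (AlgebraicClosure ℚ) (modularFunctionFieldBar N)) ∈
      Divisor.principal (K := AlgebraicClosure ℚ) (F := modularFunctionFieldBar N) := by
    have h2 : Pic0.mk (m • D) = 0 := by
      rw [← hmz]; rfl
    have h3 := (QuotientAddGroup.eq_zero_iff _).mp h2
    simpa [AddSubgroup.mem_addSubgroupOf] using h3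
  obtain ⟨y₁, y₂, h₁, h₂, E₁, E₂, k₁, k₂, n₁, n₂, e₁, e₂, hE⟩ :=
    isQuotDiv_of_mem_closure (hgen h1)
  -- special side: `r_* D` is principal
  rw [reductionModL_mk h D] at hz
  have h4 := (QuotientAddGroup.eq_zero_iff _).mp hz
  rw [AddSubgroup.mem_addSubgroupOf, coe_reductionDegZeroAlong] at h4
  obtain ⟨g, hg0, hg⟩ := h4
  have R1 := hr.2 y₁ h₁ k₁ n₁ E₁ e₁
  have R2 := hr.2 y₂ h₂ k₂ n₂ E₂ e₂
  set Y₁ : modularFunctionFieldFullC (IsLocalRing.ResidueField A) N :=
    ⟨coeffMap (IsLocalRing.residue A) y₁, k₁⟩ with hY₁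
  set Y₂ : modularFunctionFieldFullC (IsLocalRing.ResidueField A) N :=
    ⟨coeffMap (IsLocalRing.residue A) y₂, k₂⟩ with hY₂
  have hY₁0 : Y₁ ≠ 0 := fun h0 => n₁ (congrArg Subtype.val h0)
  have hY₂0 : Y₂ ≠ 0 := fun h0 => n₂ (congrArg Subtype.val h0)
  have key : ∀ Q : Place (IsLocalRing.ResidueField A)
      (modularFunctionFieldFullC (IsLocalRing.ResidueField A) N),
      (m : ℤ) * Q.ord g = Q.ord Y₁ - Q.ord Y₂ := by
    intro Q
    have h5 : Finsupp.mapDomain.addMonoidHom (placeReductionModL h)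
        (m • (D : Divisor (AlgebraicClosure ℚ) (modularFunctionFieldBar N))) =
        Finsupp.mapDomain.addMonoidHom (placeReductionModL h) (E₁ - E₂) := by rw [hE]
    rw [map_nsmul, map_sub] at h5
    have h6 := DFunLike.congr_fun h5 Q
    simp only [Finsupp.mapDomain.addMonoidHom_apply, Finsupp.smul_apply, Finsupp.sub_apply,
      nsmul_eq_mul] at h6
    rw [R1 Q, R2 Q, hg Q] at h6
    exact h6
  -- the everywhere-unit `u`
  obtain ⟨u, hu⟩ : ∃ u : modularFunctionFieldFullC (IsLocalRing.ResidueField A) N,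
      u = Y₁ * (Y₂ * g ^ m)⁻¹ := ⟨_, rfl⟩
  have hu0 : u ≠ 0 := by
    rw [hu]; exact mul_ne_zero hY₁0 (inv_ne_zero (mul_ne_zero hY₂0 (pow_ne_zero _ hg0)))
  have hordu : ∀ Q : Place (IsLocalRing.ResidueField A)
      (modularFunctionFieldFullC (IsLocalRing.ResidueField A) N), Q.ord u = 0 := by
    intro Q
    rw [hu, Q.ord_mul hY₁0 (inv_ne_zero (mul_ne_zero hY₂0 (pow_ne_zero _ hg0))), Q.ord_inv,
      Q.ord_mul hY₂0 (pow_ne_zero _ hg0), ord_pow']
    have := key Q
    linarith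
  obtain ⟨c, hc⟩ := hconst u hu0 hordu
  have hY₁eq : Y₁ = u * (Y₂ * g ^ m) := by
    rw [hu, mul_assoc, inv_mul_cancel₀ (mul_ne_zero hY₂0 (pow_ne_zero _ hg0)), mul_one]
  have hspec : coeffMap (IsLocalRing.residue A) y₁ =
      HahnSeries.C c * (g : LaurentSeries (IsLocalRing.ResidueField A)) ^ m *
        coeffMap (IsLocalRing.residue A) y₂ := by
    have h7 := congrArg Subtype.val hY₁eq
    simp only [MulMemClass.coe_mul, SubmonoidClass.coe_pow] at h7
    rw [hc] at h7
    rw [show coeffMap (IsLocalRing.residue A) y₁ = (Y₁ : LaurentSeries _) from rfl, h7]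
    rw [show coeffMap (IsLocalRing.residue A) y₂ = (Y₂ : LaurentSeries _) from rfl]
    ring
  -- divisibility on the generic fibre
  have hdiv : ∀ P : Place (AlgebraicClosure ℚ) (modularFunctionFieldBar N),
      (m : ℤ) ∣ P.ord (⟨coeffMap A.subtype y₁, h₁⟩ : modularFunctionFieldBar N)
        - P.ord (⟨coeffMap A.subtype y₂, h₂⟩ : modularFunctionFieldBar N) := by
    intro P
    have h8 := DFunLike.congr_fun hE P
    simp only [Finsupp.smul_apply, Finsupp.sub_apply, nsmul_eq_mul] at h8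
    rw [e₁, e₂] at h8
    exact ⟨_, h8.symm⟩
  obtain ⟨c', w, hw, hw'⟩ := hstar y₁ y₂ h₁ h₂ k₁ k₂ n₁ n₂ hdiv ⟨c, g, g.2, hspec⟩
  obtain ⟨hW0, hDW⟩ := generic_side hm0 h₁ h₂ n₁ n₂ e₁ e₂ hE hw hw'
  apply (QuotientAddGroup.eq_zero_iff _).mpr
  rw [AddSubgroup.mem_addSubgroupOf]
  exact ⟨⟨w, hw⟩, hW0, hDW⟩

end Fermat.Agent.S18.Trans
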