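import Mathlib
import Fermat.Prelude.Def_ModularCurve_ReductionModL
import Fermat.Agent.S18.Trans.Star
import Fermat.Agent.S18.Trans.Translate
import Fermat.Agent.S18.Trans.ConstGeneric
import Fermat.Agent.S18.Trans.ResidueAlgClosed

/-!
# S18, block E: `ConstK A N` from finite separability of `F_{N,k}` over `k(j̄)`
-/

set_option autoImplicit false

open HahnSeries AlgebraicCurve ModularCurve Polynomial IntermediateField

namespace Fermat.Agent.S18.Trans

set_option synthInstance.maxHeartbeats 400000

/-- `j̄` is transcendental over the coefficient field. -/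
theorem transcendental_jqModC (k : Type*) [Field k] : Transcendental k (jqModC k) := by
  intro halg
  obtain ⟨p, hp0, hp⟩ := halg
  have hcoeff : (aeval (jqModC k) p).coeff (-(p.natDegree : ℤ)) = p.leadingCoeff := by
    rw [aeval_eq_sum_range, HahnSeries.coeff_sum]
    rw [Finset.sum_eq_single p.natDegree]
    · rw [Algebra.smul_def, algebraMap_laurent_eq_C, HahnSeries.C_mul_eq_smul,
        HahnSeries.coeff_smul, coeff_jqModC_pow_self, smul_eq_mul, mul_one]
      rfl
    · intro i hi hne
      rw [Finset.mem_range] at hi
      have hlt : i < p.natDegree := lt_of_le_of_ne (Nat.lt_succ_iff.mp hi) hne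
      rw [Algebra.smul_def, algebraMap_laurent_eq_C, HahnSeries.C_mul_eq_smul,
        HahnSeries.coeff_smul, coeff_jqModC_pow_of_lt k (by omega : -(p.natDegree : ℤ) < -(i : ℤ)),
        smul_zero]
    · intro h
      exact absurd (Finset.mem_range.mpr (Nat.lt_succ_self _)) h
  rw [hp, HahnSeries.coeff_zero] at hcoeff
  exact hp0 (leadingCoeff_eq_zero.mp hcoeff.symm)


/-- `j̄` as an element of `F_{N,k}`. -/
noncomputable def jBar (k : Type*) [Field k] (N : ℕ) : modularFunctionFieldFullC k N :=
  ⟨jqModC k, jqModC_mem_full k N⟩

theorem transcendental_jBar (k : Type*) [Field k] (N : ℕ) : Transcendental k (jBar k N) := by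
  intro halg
  apply transcendental_jqModC k
  have := halg.algebraMap (A := LaurentSeries k)
  exact this

/-- **ConstK** from finite separability of `F_{N,k}` over `k(j̄)`. -/
theorem constK_of (A : ValuationSubring (AlgebraicClosure ℚ)) (N : ℕ)
    [FiniteDimensional
      (IntermediateField.adjoin (IsLocalRing.ResidueField A)
        {jBar (IsLocalRing.ResidueField A) N})
      (modularFunctionFieldFullC (IsLocalRing.ResidueField A) N)]
    [Algebra.IsSeparable
      (IntermediateField.adjoin (IsLocalRing.ResidueField A)
        {jBar (IsLocalRing.ResidueField A) N})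
      (modularFunctionFieldFullC (IsLocalRing.ResidueField A) N)] :
    ConstK A N := by
  intro u hu hord
  haveI : IsAlgClosed (IsLocalRing.ResidueField A) :=
    ResidueAlgClosed.isAlgClosed_residueField A
  obtain ⟨c, hc⟩ := ConstGeneric.exists_const_of_ord_eq_zero
    (jBar (IsLocalRing.ResidueField A) N) (transcendental_jBar _ N) hu hord
  refine ⟨c, ?_⟩
  rw [hc]
  exact algebraMap_laurent_eq_C c

end Fermat.Agent.S18.Trans
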