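import Mathlib
import Fermat.Prelude.Def_FLTPrelim_Ramification

/-!
# S18, block E: elementary consequences of `A.LiesOverPrime ℓ`
-/

set_option autoImplicit false

namespace Fermat.Agent.S18.Trans.LiesOver

variable {L : Type*} [Field L] {A : ValuationSubring L} {ℓ : ℕ}

theorem natCast_mem (hA : A.LiesOverPrime ℓ) : (ℓ : L) ∈ A := by
  have h : (ℓ : L) ∈ A.nonunits := hA
  rw [ValuationSubring.mem_nonunits_iff] at h
  exact (A.valuation_le_one_iff _).mp h.le

theorem valuation_natCast_lt_one (hA : A.LiesOverPrime ℓ) : A.valuation (ℓ : L) < 1 := by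
  have h : (ℓ : L) ∈ A.nonunits := hA
  rwa [ValuationSubring.mem_nonunits_iff] at h

/-- every natural number lies in `A`. -/
theorem natCast_mem_all (A : ValuationSubring L) (n : ℕ) : (n : L) ∈ A :=
  _root_.natCast_mem A n

theorem residue_natCast (hA : A.LiesOverPrime ℓ) :
    ((ℓ : ℕ) : IsLocalRing.ResidueField A) = 0 := by
  have h1 : ((ℓ : ℕ) : IsLocalRing.ResidueField A) = IsLocalRing.residue A ((ℓ : ℕ) : A) := by
    rw [map_natCast]
  rw [h1, IsLocalRing.residue_eq_zero_iff, IsLocalRing.mem_maximalIdeal, mem_nonunits_iff]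
  intro hu
  have h : (ℓ : L) ∈ A.nonunits := hA
  rw [ValuationSubring.mem_nonunits_iff] at h
  have h2 : A.valuation ((((ℓ : ℕ) : A) : A) : L) = 1 :=
    (ValuationSubring.valuation_eq_one_iff A _).mp hu
  have h3 : ((((ℓ : ℕ) : A) : A) : L) = (ℓ : L) := by simp
  rw [h3] at h2
  rw [h2] at h
  exact lt_irrefl _ h

/-- the residue field has characteristic `ℓ`. -/
theorem charP_residueField [hℓ : Fact ℓ.Prime] (hA : A.LiesOverPrime ℓ) :
    CharP (IsLocalRing.ResidueField A) ℓ := by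
  have h0 := residue_natCast hA
  have hdvd : ringChar (IsLocalRing.ResidueField A) ∣ ℓ := (ringChar.spec _ ℓ).mp h0
  rcases (Nat.dvd_prime hℓ.out).mp hdvd with h1 | h1
  · exfalso
    have : CharP (IsLocalRing.ResidueField A) 1 := h1 ▸ ringChar.charP _
    exact CharP.char_ne_one (IsLocalRing.ResidueField A) 1 rfl
  · exact h1 ▸ ringChar.charP _

/-- a natural number prime to `ℓ` is a unit of `A`. -/
theorem valuation_natCast_eq_one [hℓ : Fact ℓ.Prime] (hA : A.LiesOverPrime ℓ) {m : ℕ}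
    (hm : ¬ ℓ ∣ m) : A.valuation (m : L) = 1 := by
  have hcop : Nat.Coprime m ℓ := ((Nat.Prime.coprime_iff_not_dvd hℓ.out).mpr hm).symm
  -- Bezout in ℤ
  have hb : (m : ℤ) * Int.gcdA m ℓ + (ℓ : ℤ) * Int.gcdB m ℓ = 1 := by
    have := Int.gcd_eq_gcd_ab (m : ℤ) (ℓ : ℤ)
    rw [← this]
    exact_mod_cast hcop
  have hbL : (m : L) * ((Int.gcdA m ℓ : ℤ) : L) + (ℓ : L) * ((Int.gcdB m ℓ : ℤ) : L) = 1 := by
    exact_mod_cast congrArg (fun z : ℤ => (z : L)) hb
  have hint : ∀ z : ℤ, A.valuation ((z : ℤ) : L) ≤ 1 := by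
    intro z
    rw [A.valuation_le_one_iff]
    exact _root_.intCast_mem A z
  have hle : A.valuation (m : L) ≤ 1 := by
    rw [A.valuation_le_one_iff]; exact natCast_mem_all A m
  by_contra hne
  have hlt : A.valuation (m : L) < 1 := lt_of_le_of_ne hle hne
  have h1 : A.valuation ((m : L) * ((Int.gcdA m ℓ : ℤ) : L)) < 1 := by
    rw [map_mul]
    exact mul_lt_one_of_nonneg_of_lt_one_left zero_le hlt (hint _)
  have h2 : A.valuation ((ℓ : L) * ((Int.gcdB m ℓ : ℤ) : L)) < 1 := by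
    rw [map_mul]
    exact mul_lt_one_of_nonneg_of_lt_one_left zero_le (valuation_natCast_lt_one hA) (hint _)
  have h3 : A.valuation (1 : L) < 1 := by
    rw [← hbL]
    exact lt_of_le_of_lt (A.valuation.map_add _ _) (max_lt h1 h2)
  rw [map_one] at h3
  exact lt_irrefl _ h3

end Fermat.Agent.S18.Trans.LiesOver
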