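import Mathlib
import Fermat.Prelude.Def_AlgebraicCurve_DivisorClassGroup
import Fermat.Agent.S24.FFPlaces

/-!
# S18, block E: restriction of a place to a subfield (algebraic extension)

For an algebraic extension `F'/F` of fields over `K`, every place `P'` of `F'` restricts to a
place `P` of `F`, and `P'.ord (algebraMap F F' y) = e * P.ord y` for a fixed `e > 0`.
-/

set_option autoImplicit false
set_option linter.unusedSectionVars false

open AlgebraicCurve

namespace Fermat.Agent.S18.Trans.PlaceRestrict

variable {K F F' : Type*} [Field K] [Field F] [Field F'] [Algebra K F] [Algebra K F']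
  [Algebra F F'] [IsScalarTower K F F']

/-- the order function of `P'` on the subfield. -/
noncomputable def subOrd (P' : Place K F') (y : F) : ℤ := P'.ord (algebraMap F F' y)

theorem subOrd_mul (P' : Place K F') {x y : F} (hx : x ≠ 0) (hy : y ≠ 0) :
    subOrd P' (x * y) = subOrd P' x + subOrd P' y := by
  unfold subOrd
  rw [map_mul, P'.ord_mul ((map_ne_zero _).mpr hx) ((map_ne_zero _).mpr hy)]

theorem subOrd_inv (P' : Place K F') (x : F) : subOrd P' x⁻¹ = - subOrd P' x := by
  unfold subOrd
  rw [map_inv₀, P'.ord_inv]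

theorem mem_comap_iff (P' : Place K F') {y : F} (hy : y ≠ 0) :
    y ∈ P'.toValuationSubring.comap (algebraMap F F') ↔ 0 ≤ subOrd P' y := by
  rw [ValuationSubring.mem_comap]
  exact Fermat.Agent.S24.mem_iff_ord_nonneg P' ((map_ne_zero _).mpr hy)

/-- the restriction is not the trivial valuation ring. -/
theorem comap_ne_top [Algebra.IsAlgebraic F F'] (P' : Place K F') :
    P'.toValuationSubring.comap (algebraMap F F') ≠ ⊤ := by
  intro htop
  apply P'.ne_top'
  have hall : ∀ y : F, algebraMap F F' y ∈ P'.toValuationSubring := by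
    intro y
    have : y ∈ P'.toValuationSubring.comap (algebraMap F F') := by
      rw [htop]; exact ValuationSubring.mem_top y
    exact this
  let φ : F →+* P'.toValuationSubring :=
    (algebraMap F F').codRestrict P'.toValuationSubring.toSubring hall
  refine SetLike.ext fun x => ⟨fun _ => ValuationSubring.mem_top x, fun _ => ?_⟩
  have hint : IsIntegral F x := (Algebra.IsAlgebraic.isAlgebraic x).isIntegral
  obtain ⟨p, hpm, hp⟩ := hint
  have hint' : IsIntegral P'.toValuationSubring x := by
    refine ⟨p.map φ, hpm.map φ, ?_⟩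
    rw [Polynomial.eval₂_map]
    have : (algebraMap P'.toValuationSubring F').comp φ = algebraMap F F' := by
      ext y; rfl
    rw [this]
    exact hp
  obtain ⟨z, hz⟩ := (IsIntegrallyClosed.isIntegral_iff (R := P'.toValuationSubring)
    (K := F')).mp hint'
  rw [← hz]
  exact z.2


theorem subOrd_zero (P' : Place K F') : subOrd P' (0 : F) = 0 := by
  unfold subOrd; rw [map_zero, Place.ord_zero]

theorem subOrd_zpow (P' : Place K F') (x : F) (n : ℤ) :
    subOrd P' (x ^ n) = n * subOrd P' x := by
  unfold subOrd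
  rw [map_zpow₀, P'.ord_zpow]

/-- the restriction is a principal ideal ring. -/
theorem comap_isPrincipalIdealRing (P' : Place K F') :
    IsPrincipalIdealRing (P'.toValuationSubring.comap (algebraMap F F')) := by
  classical
  refine ⟨fun I => ?_⟩
  by_cases hI : I = ⊥
  · exact ⟨0, by rw [hI]; simp⟩
  obtain ⟨x₁, hx₁I, hx₁0⟩ := Submodule.exists_mem_ne_zero_of_ne_bot hI
  let S : Set ℕ := {n | ∃ x ∈ I, x ≠ 0 ∧ (subOrd P' (x : F)).toNat = n}
  have hS : S.Nonempty := ⟨_, x₁, hx₁I, hx₁0, rfl⟩
  obtain ⟨x₀, hx₀I, hx₀0, hx₀⟩ := Nat.sInf_mem hS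
  have hmin : ∀ y ∈ I, y ≠ 0 → sInf S ≤ (subOrd P' (y : F)).toNat :=
    fun y hy hy0 => Nat.sInf_le ⟨y, hy, hy0, rfl⟩
  have hnn : ∀ y : P'.toValuationSubring.comap (algebraMap F F'), y ≠ 0 →
      0 ≤ subOrd P' (y : F) := by
    intro y hy0
    have hy0' : (y : F) ≠ 0 := fun h => hy0 (Subtype.ext h)
    exact (mem_comap_iff P' hy0').mp y.2
  refine ⟨x₀, le_antisymm ?_ ?_⟩
  · intro y hy
    rw [Submodule.mem_span_singleton]
    by_cases hy0 : y = 0
    · exact ⟨0, by rw [hy0, zero_smul]⟩
    have hx₀0' : (x₀ : F) ≠ 0 := fun h => hx₀0 (Subtype.ext h)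
    have hy0' : (y : F) ≠ 0 := fun h => hy0 (Subtype.ext h)
    have hle : subOrd P' (x₀ : F) ≤ subOrd P' (y : F) := by
      have h1 := hmin y hy hy0
      rw [← hx₀] at h1
      have h2 := hnn x₀ hx₀0
      have h3 := hnn y hy0
      omega
    have hq : (y : F) * (x₀ : F)⁻¹ ∈ P'.toValuationSubring.comap (algebraMap F F') := by
      rw [mem_comap_iff P' (mul_ne_zero hy0' (inv_ne_zero hx₀0')),
        subOrd_mul P' hy0' (inv_ne_zero hx₀0'), subOrd_inv]
      omega
    refine ⟨⟨_, hq⟩, ?_⟩
    apply Subtype.ext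
    show (y : F) * (x₀ : F)⁻¹ * (x₀ : F) = y
    rw [mul_assoc, inv_mul_cancel₀ hx₀0', mul_one]
  · rw [Submodule.span_le]
    intro y hy
    rw [Set.mem_singleton_iff] at hy
    rw [hy]
    exact hx₀I

/-- the restricted place. -/
noncomputable def restrict [Algebra.IsAlgebraic F F'] (P' : Place K F') : Place K F where
  toValuationSubring := P'.toValuationSubring.comap (algebraMap F F')
  algebraMap_mem' := fun a => by
    rw [ValuationSubring.mem_comap, ← IsScalarTower.algebraMap_apply]
    exact P'.algebraMap_mem' a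
  ne_top' := comap_ne_top P'
  isPrincipalIdealRing' := comap_isPrincipalIdealRing P'

theorem subOrd_unit [Algebra.IsAlgebraic F F'] (P' : Place K F')
    (u : (restrict (F := F) P').toValuationSubringˣ) :
    subOrd P' (((u : (restrict (F := F) P').toValuationSubring) : F)) = 0 := by
  have hu0 : (((u : (restrict (F := F) P').toValuationSubring) : F)) ≠ 0 := by
    intro h
    exact u.ne_zero (Subtype.ext h)
  have h1 : 0 ≤ subOrd P' (((u : (restrict (F := F) P').toValuationSubring) : F)) :=
    (mem_comap_iff P' hu0).mp (u : (restrict (F := F) P').toValuationSubring).2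
  have hinv : (((u⁻¹ : (restrict (F := F) P').toValuationSubringˣ) :
      (restrict (F := F) P').toValuationSubring) : F) =
      (((u : (restrict (F := F) P').toValuationSubring) : F))⁻¹ := by
    have h := congrArg (Subtype.val) (u.inv_mul)
    have h' : (((u⁻¹ : (restrict (F := F) P').toValuationSubringˣ) :
      (restrict (F := F) P').toValuationSubring) : F) *
      (((u : (restrict (F := F) P').toValuationSubring) : F)) = 1 := h
    exact eq_inv_of_mul_eq_one_left h'
  have h2 : 0 ≤ subOrd P' ((((u : (restrict (F := F) P').toValuationSubring) : F))⁻¹) := by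
    rw [← hinv]
    have hu0' : (((u⁻¹ : (restrict (F := F) P').toValuationSubringˣ) :
      (restrict (F := F) P').toValuationSubring) : F) ≠ 0 := by
      intro h
      exact (u⁻¹).ne_zero (Subtype.ext h)
    exact (mem_comap_iff P' hu0').mp
      ((u⁻¹ : (restrict (F := F) P').toValuationSubringˣ) :
        (restrict (F := F) P').toValuationSubring).2
  rw [subOrd_inv] at h2
  omega

/-- **restriction of places**: `ord_{P'} = e · ord_P` on the subfield, `e > 0`. -/
theorem exists_ramification [Algebra.IsAlgebraic F F'] (P' : Place K F') :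
    ∃ e : ℤ, 0 < e ∧ ∀ y : F,
      P'.ord (algebraMap F F' y) = e * (restrict (F := F) P').ord y := by
  obtain ⟨π, hπ⟩ := IsDiscreteValuationRing.exists_irreducible
    (restrict (F := F) P').toValuationSubring
  have hπ0 : (π : F) ≠ 0 := fun h => hπ.ne_zero (Subtype.ext h)
  have hnn : 0 ≤ subOrd P' (π : F) := (mem_comap_iff P' hπ0).mp π.2
  have hne : subOrd P' (π : F) ≠ 0 := by
    intro h0
    apply hπ.not_isUnit
    have hinv : (π : F)⁻¹ ∈ P'.toValuationSubring.comap (algebraMap F F') := by
      rw [mem_comap_iff P' (inv_ne_zero hπ0), subOrd_inv, h0]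
      simp
    refine IsUnit.of_mul_eq_one (⟨(π : F)⁻¹, hinv⟩ : (restrict (F := F) P').toValuationSubring) ?_
    apply Subtype.ext
    show (π : F) * (π : F)⁻¹ = 1
    exact mul_inv_cancel₀ hπ0
  refine ⟨subOrd P' (π : F), lt_of_le_of_ne hnn (Ne.symm hne), fun y => ?_⟩
  rcases eq_or_ne y 0 with rfl | hy
  · simp
  obtain ⟨u, hu⟩ := (restrict (F := F) P').exists_unit_mul_zpow hy hπ
  have hu0 : (((u : (restrict (F := F) P').toValuationSubring) : F)) ≠ 0 := by
    intro h
    exact u.ne_zero (Subtype.ext h)
  show subOrd P' y = _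
  conv_lhs => rw [hu]
  rw [subOrd_mul P' hu0 (zpow_ne_zero _ hπ0), subOrd_unit, subOrd_zpow, zero_add, mul_comm]

end Fermat.Agent.S18.Trans.PlaceRestrict
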