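import Mathlib
import Fermat.Prelude.Def_ModularCurve_ReductionModL
import Fermat.Agent.S24.FiniteFibres
import Fermat.Agent.S18.Trans.PlaceRestrict

/-!
# S18, block E: passing from level `N` to level `M`, `N ∣ M`

`modularFunctionFieldBar N ≤ modularFunctionFieldBar M`, the extension is algebraic, and the
hypothesis `m ∣ ord` of `Trans.Star` transfers from the places of level `N` to those of level `M`.
-/

set_option autoImplicit false

open HahnSeries AlgebraicCurve ModularCurve IntermediateField Polynomial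

namespace Fermat.Agent.S18.Trans.LevelUp

local notation "K" => AlgebraicClosure ℚ

theorem laurentBaseChange_mono (L : Type*) [Field L] [Algebra ℚ L]
    {F₀ F₁ : IntermediateField ℚ (LaurentSeries ℚ)} (h : F₀ ≤ F₁) :
    laurentBaseChange L F₀ ≤ laurentBaseChange L F₁ := by
  rw [laurentBaseChange, IntermediateField.adjoin_le_iff]
  rintro _ ⟨y, hy, rfl⟩
  exact coeffEmb_mem_laurentBaseChange L (h hy)

theorem bar_le {N M : ℕ} [NeZero N] [NeZero M] (h : N ∣ M) :
    modularFunctionFieldBar N ≤ modularFunctionFieldBar M :=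
  laurentBaseChange_mono K (full_degeneracy_le h)

/-- the inclusion `F_N → F_M` as an algebra structure (use with `letI`). -/
@[reducible] noncomputable def algUp {N M : ℕ} [NeZero N] [NeZero M] (h : N ∣ M) :
    Algebra (modularFunctionFieldBar N) (modularFunctionFieldBar M) :=
  (IntermediateField.inclusion (bar_le h)).toRingHom.toAlgebra

theorem algUp_apply {N M : ℕ} [NeZero N] [NeZero M] (h : N ∣ M)
    (x : modularFunctionFieldBar N) :
    letI := algUp h
    algebraMap (modularFunctionFieldBar N) (modularFunctionFieldBar M) x = ⟨x.1, bar_le h x.2⟩ :=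
  rfl

theorem isScalarTower_up {N M : ℕ} [NeZero N] [NeZero M] (h : N ∣ M) :
    letI := algUp h
    IsScalarTower K (modularFunctionFieldBar N) (modularFunctionFieldBar M) := by
  letI := algUp h
  exact IsScalarTower.of_algebraMap_eq fun a => rfl


open Fermat.Agent.S24 in
/-- `F_M` is algebraic over `F_N`. -/
theorem isAlgebraic_up {N M : ℕ} [NeZero N] [NeZero M] (h : N ∣ M) :
    letI := algUp h
    Algebra.IsAlgebraic (modularFunctionFieldBar N) (modularFunctionFieldBar M) := by
  letI := algUp h
  haveI := isScalarTower_up h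
  refine ⟨fun x => ?_⟩
  haveI : FiniteDimensional K⟮PlaceAt.J M⟯ (modularFunctionFieldBar M) :=
    FiniteFibres.finiteDimensional_J M
  have hint : IsIntegral K⟮PlaceAt.J M⟯ x := IsIntegral.of_finite _ _
  -- the coefficient field `K(J)` lies in the image of `F_N`
  have hJ : PlaceAt.J M =
      algebraMap (modularFunctionFieldBar N) (modularFunctionFieldBar M) (PlaceAt.J N) := by
    apply Subtype.ext
    rfl
  have hle : K⟮PlaceAt.J M⟯ ≤
      (IsScalarTower.toAlgHom K (modularFunctionFieldBar N)
        (modularFunctionFieldBar M)).fieldRange := by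
    rw [adjoin_simple_le_iff]
    exact ⟨PlaceAt.J N, hJ.symm⟩
  set p := (minpoly K⟮PlaceAt.J M⟯ x).map (algebraMap K⟮PlaceAt.J M⟯ (modularFunctionFieldBar M))
    with hp
  have hp0 : p ≠ 0 := (Polynomial.map_ne_zero_iff
    (FaithfulSMul.algebraMap_injective K⟮PlaceAt.J M⟯ (modularFunctionFieldBar M))).mpr
    (minpoly.ne_zero hint)
  have hroot : eval x p = 0 := by
    rw [hp, eval_map, ← aeval_def]; exact minpoly.aeval _ _
  have hlifts : p ∈ lifts (algebraMap (modularFunctionFieldBar N) (modularFunctionFieldBar M)) := by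
    rw [lifts_iff_coeff_lifts]
    intro n
    rw [hp, coeff_map]
    obtain ⟨y, hy⟩ := hle ((minpoly K⟮PlaceAt.J M⟯ x).coeff n).2
    exact ⟨y, hy⟩
  obtain ⟨q, hq⟩ := hlifts
  have hq' : q.map (algebraMap (modularFunctionFieldBar N) (modularFunctionFieldBar M)) = p := hq
  refine ⟨q, ?_, ?_⟩
  · rintro rfl
    apply hp0
    rw [← hq']; simp
  · rw [aeval_def, ← eval_map, hq']
    exact hroot

/-- **transfer of `m ∣ ord`** from the places of level `N` to the places of level `M`. -/
theorem dvd_ord_up {N M : ℕ} [NeZero N] [NeZero M] (h : N ∣ M) (m : ℕ)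
    {Y₁ Y₂ : LaurentSeries K}
    (h₁ : Y₁ ∈ modularFunctionFieldBar N) (h₂ : Y₂ ∈ modularFunctionFieldBar N)
    (hdiv : ∀ P : Place K (modularFunctionFieldBar N),
      (m : ℤ) ∣ P.ord (⟨Y₁, h₁⟩ : modularFunctionFieldBar N)
        - P.ord (⟨Y₂, h₂⟩ : modularFunctionFieldBar N)) :
    ∀ P' : Place K (modularFunctionFieldBar M),
      (m : ℤ) ∣ P'.ord (⟨Y₁, bar_le h h₁⟩ : modularFunctionFieldBar M)
        - P'.ord (⟨Y₂, bar_le h h₂⟩ : modularFunctionFieldBar M) := by
  intro P'
  letI := algUp h
  haveI := isScalarTower_up h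
  haveI := isAlgebraic_up h
  obtain ⟨e, -, he⟩ := PlaceRestrict.exists_ramification
    (F := modularFunctionFieldBar N) P'
  have e1 := he ⟨Y₁, h₁⟩
  have e2 := he ⟨Y₂, h₂⟩
  rw [algUp_apply] at e1 e2
  rw [e1, e2, ← mul_sub]
  exact Dvd.dvd.mul_left (hdiv _) e

end Fermat.Agent.S18.Trans.LevelUp
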