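import Mathlib
import Fermat.Agent.S18.Trans.ConstK
import Fermat.Agent.S18.Trans.LiesOver
import Fermat.Agent.S18.Gauss.Separable

/-!
# S18, block E: `ConstK A N` unconditionally (for `ℓ ∤ N`, `A` over `ℓ`)
-/

set_option autoImplicit false

open ModularCurve

namespace Fermat.Agent.S18.Trans

set_option synthInstance.maxHeartbeats 400000

/-- **ConstK**: on the special fibre of level `N` (`ℓ ∤ N`), everywhere-unit functions are
constant. -/
theorem constK (N : ℕ) [NeZero N] {ℓ : ℕ} [Fact ℓ.Prime] (hℓN : ¬ ℓ ∣ N)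
    (A : ValuationSubring (AlgebraicClosure ℚ)) (hA : A.LiesOverPrime ℓ) : ConstK A N := by
  haveI : CharP (IsLocalRing.ResidueField A) ℓ := LiesOver.charP_residueField hA
  haveI := Fermat.Agent.S18.Gauss.Separable.finiteDimensional_full (ℓ := ℓ)
    (k := IsLocalRing.ResidueField A) (N := N) hℓN
  haveI := Fermat.Agent.S18.Gauss.Separable.isSeparable_full (ℓ := ℓ)
    (k := IsLocalRing.ResidueField A) (N := N) hℓN
  exact constK_of A N

end Fermat.Agent.S18.Trans
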