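import Mathlib
import Fermat.Prelude.Def_ModularCurve_ReductionModL
import Fermat.Agent.S18.Trans.Translate
import Fermat.Agent.S18.Trans.ConstKFinal

/-!
# S18, block E: the frozen statement from the Kummer form `Star`
-/

set_option autoImplicit false

open ModularCurve

namespace Fermat.Agent.S18.Trans

set_option synthInstance.maxHeartbeats 400000

/-- **S18 from `Star`**: the conclusion of the frozen statement, given the Kummer form `(*)_N`
for the level `N`, the valuation subring `A` and the exponent `m`. -/
theorem s18_of_star (N : ℕ) [NeZero N] {ℓ : ℕ} [Fact ℓ.Prime] (hℓN : ¬ ℓ ∣ N)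
    (A : ValuationSubring (AlgebraicClosure ℚ)) (hA : A.LiesOverPrime ℓ)
    (h : ModularCurve.ReductionInputsModL A N) (m : ℕ) (hm : ¬ ℓ ∣ m)
    (hstar : Star A N m) (z : ModularCurve.JZero N)
    (hmz : m • z = 0) (hz : ModularCurve.reductionModL A N z = 0) : z = 0 := by
  have hm0 : m ≠ 0 := by
    rintro rfl
    exact hm (dvd_zero ℓ)
  exact eq_zero_of_star h m hm0 (constK N hℓN A hA) hstar z hmz hz

end Fermat.Agent.S18.Trans
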